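import Fermat.Agent.BR2.GeoLevel
import Fermat.Agent.FF2.S32M.Top
import Fermat.Agent.FF2.S33.FlatOrdGeneral

/-!
# PROGRAMME I, block P (plumbing): the definitions of contract D-P (sorry-free)

* `TorEps`     : (P1) THE TOP LITERAL that Steps A + B must deliver (dialect of `BR2/GeoLevel`:
                 `Dt : Final.ModularData M q B hB hqM`, `setup Dt`).
* `Kills`, `KillsNewAt`, `GeoIn` : the geometric input of the algebraic plumbing, statements about
                 `ℤ[G_ℚ]`-annihilators only (no Hecke polynomials, no components).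
* `ROrd`, `actZ`, `newPart` : the algebraic objects.
-/

set_option autoImplicit false
set_option linter.unusedSectionVars false
set_option linter.style.haveILetI false

noncomputable section

set_option synthInstance.maxHeartbeats 400000

namespace Fermat.Agent.FF3.P

open ModularCurve IsLocalRing CuspForm
open Fermat.Agent.X0 Fermat.Agent.BR.Final Fermat.Agent.BR2 Fermat.Agent.BR2.SetupOfData
open Fermat.Agent.BR Fermat.Agent.Pseudo Fermat.Agent.FF2.S32M Fermat.Agent.FF2.Order

local notation "GQ" => (AlgebraicClosure ℚ ≃ₐ[ℚ] AlgebraicClosure ℚ)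

/-! ## (P1) the top literal of Steps A + B -/

section TopLiteral

variable {M q : ℕ} [NeZero M] [hq : Fact q.Prime]
variable {B : ValuationSubring Kb} {hB : B.LiesOverPrime q} {hqM : ¬ q ∣ M}
variable [IsAlgClosed (ResidueField B)]

/-- **(P1) TOR-EPS**: inertia at `B` acts through the cyclotomic character on the `q`-new part of
the toric part `torSub (q ^ k)` of `J₀(M q)[q ^ k]`, up to a nonzero integer `e` independent of
`k`, `s`, `x`.  (`e = 1` is what Steps A + B prove; any `e ≠ 0` suffices downstream.) -/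
def TorEps (Dt : ModularData M q B hB hqM) : Prop :=
  haveI : NeZero q := ⟨hq.out.ne_zero⟩
  ∃ e : ℕ, e ≠ 0 ∧ ∀ (k : ℕ) (s : GQ), s ∈ B.inertiaSubgroupIn ℚ →
    ∀ x : JZero (M * q), x ∈ Filt.torSub (setup Dt) (q ^ k) →
      LevelTransfer.alphaDown M q x = 0 → LevelMaps.betaDown M q x = 0 →
        e • (s • x - Cyclo.cycloLift (q ^ k) s • x) = 0

end TopLiteral

/-! ## The geometric input of the algebraic plumbing: annihilators in `ℤ[G_ℚ]` only -/

section Kills

/-- `u ∈ ℤ[G_ℚ]` kills `J₀(L)[p ^ k]`. -/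
def Kills (L p k : ℕ) [NeZero L] (u : GQ →₀ ℤ) : Prop :=
  ∀ x : JZero L, (p ^ k) • x = 0 → fsAct (JZero L) u x = 0

/-- **KILLS-NEW** at the level `L`, relative to the `p`-old level `M'`: for `u'` killing
`J₀(M')[p ^ k]`, `s, s'` in the inertia group at `P` and `x ∈ J₀(L)[p ^ k]`,
`e • (s' - ε_k(s')) (s - 1) u' x = 0`. -/
def KillsNewAt (L M' p : ℕ) [NeZero L] [NeZero M'] [hp : Fact p.Prime]
    (P : ValuationSubring Kb) (e : ℕ) : Prop :=
  haveI : NeZero p := ⟨hp.out.ne_zero⟩
  ∀ (k : ℕ) (s s' : GQ), s ∈ P.inertiaSubgroupIn ℚ → s' ∈ P.inertiaSubgroupIn ℚ →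
    ∀ u' : GQ →₀ ℤ, Kills M' p k u' → ∀ x : JZero L, (p ^ k) • x = 0 →
      e • (s' • (s • fsAct (JZero L) u' x - fsAct (JZero L) u' x) -
        Cyclo.cycloLift (p ^ k) s' • (s • fsAct (JZero L) u' x - fsAct (JZero L) u' x)) = 0

/-- **GEO-IN**: what the algebraic plumbing consumes, at the level `N` of the datum. -/
def GeoIn (N p : ℕ) [NeZero N] [Fact p.Prime] : Prop :=
  ∀ P : ValuationSubring Kb, P.LiesOverPrime p →
    ∃ (M' : ℕ) (_ : NeZero M') (e : ℕ), ¬ p ∣ M' ∧ e ≠ 0 ∧ KillsNewAt N M' p P e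

end Kills

/-! ## The algebraic objects -/

section Algebra

/-- `R_ord(s, s') = (ρ(s') - det ρ(s')) (ρ(s) - 1)` (this ORDER of the factors). -/
def ROrd {A : Type} [CommRing A] [IsLocalRing A] (ρ : GaloisRepAdic A) (s s' : GQ) :
    Module.End A ρ.V :=
  (ρ.ρ s' - LinearMap.det (ρ.ρ s') • 1) * (ρ.ρ s - 1)

/-- The action of `u ∈ ℤ[G_ℚ]` on `V`. -/
def actZ {A : Type} [CommRing A] [IsLocalRing A] (ρ : GaloisRepAdic A) (u : GQ →₀ ℤ) :
    Module.End A ρ.V :=
  u.sum fun σ n => n • ρ.ρ σ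

/-- The `p`-new part of `V` modulo `I` at depth `k`: the span of `u' V`, `u'` killing
`J₀(M')[p ^ k]`, together with `I V`.  It is a `T[G_ℚ]`-submodule, hence (residual absolute
irreducibility, `S53.SchurH19.adic_span_range_eq_top`) stable under `End_T V`. -/
def newPart {A : Type} [CommRing A] [IsLocalRing A] (ρ : GaloisRepAdic A) (M' p k : ℕ)
    [NeZero M'] (I : Ideal A) : Submodule A ρ.V :=
  Submodule.span A {w | ∃ u' : GQ →₀ ℤ, Kills M' p k u' ∧ ∃ v, w = actZ ρ u' v} ⊔
    I • (⊤ : Submodule A ρ.V)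

end Algebra

end Fermat.Agent.FF3.P
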