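import Fermat.Agent.FF3.P.NewPart

/-!
# PROGRAMME I, block P, node (P-B2): the base change of an adic representation along `φ : T → B`

`ρB := ρ.baseChangeAlong φ hφ` (Prelude).  `toB v := 1 ⊗ v`.

* `toB` (additive, `φ`-semilinear), `rhoB_toB`, `span_range_toB`, `toB_eq_zero_iff`;
* `det_rhoB`, `rOrd_toB`, `actZ_toB`, `end_ext_toB`.
-/

set_option autoImplicit false
set_option linter.unusedSectionVars false
set_option linter.style.haveILetI false

noncomputable section

namespace Fermat.Agent.FF3.P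

open TensorProduct IsLocalRing

local notation "GQ" => (AlgebraicClosure ℚ ≃ₐ[ℚ] AlgebraicClosure ℚ)

variable {T B : Type} [CommRing T] [IsLocalRing T] [CommRing B] [IsLocalRing B]
  (φ : T →+* B) (hφ : IsLocalHom φ) (ρ : GaloisRepAdic T)

/-- `v ↦ 1 ⊗ v`, from `V` to the base change. -/
def toB : ρ.V →+ (ρ.baseChangeAlong φ hφ).V :=
  letI : Algebra T B := φ.toAlgebra
  { toFun := fun v => ((1 : B) ⊗ₜ[T] v : B ⊗[T] ρ.V)
    map_zero' := TensorProduct.tmul_zero _ _
    map_add' := fun v w => TensorProduct.tmul_add _ _ _ }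

theorem toB_smul (t : T) (v : ρ.V) : toB φ hφ ρ (t • v) = φ t • toB φ hφ ρ v := by
  letI : Algebra T B := φ.toAlgebra
  show ((1 : B) ⊗ₜ[T] (t • v) : B ⊗[T] ρ.V) = φ t • ((1 : B) ⊗ₜ[T] v : B ⊗[T] ρ.V)
  rw [TensorProduct.tmul_smul, TensorProduct.smul_tmul', TensorProduct.smul_tmul',
    Algebra.smul_def, smul_eq_mul, mul_one, mul_one]
  rfl

theorem rhoB_toB (σ : GQ) (v : ρ.V) :
    (ρ.baseChangeAlong φ hφ).ρ σ (toB φ hφ ρ v) = toB φ hφ ρ (ρ.ρ σ v) := by
  letI : Algebra T B := φ.toAlgebra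
  show (ρ.ρ σ).baseChange B ((1 : B) ⊗ₜ[T] v) = (1 : B) ⊗ₜ[T] (ρ.ρ σ v)
  rw [LinearMap.baseChange_tmul]

theorem span_range_toB :
    Submodule.span B (Set.range (toB φ hφ ρ)) = ⊤ := by
  letI : Algebra T B := φ.toAlgebra
  rw [eq_top_iff]
  have key : ∀ x : (ρ.baseChangeAlong φ hφ).V,
      x ∈ Submodule.span B (Set.range (toB φ hφ ρ)) := by
    intro x
    refine TensorProduct.induction_on (R := T) (M := B) (N := ρ.V)
      (motive := fun x => x ∈ Submodule.span B (Set.range (toB φ hφ ρ))) x ?_ ?_ ?_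
    · exact Submodule.zero_mem _
    · intro b v
      have h1 : (b ⊗ₜ[T] v : B ⊗[T] ρ.V) = b • ((1 : B) ⊗ₜ[T] v : B ⊗[T] ρ.V) := by
        rw [TensorProduct.smul_tmul', smul_eq_mul, mul_one]
      rw [h1]
      exact (Submodule.span B (Set.range (toB φ hφ ρ))).smul_mem b
        (Submodule.subset_span ⟨v, rfl⟩)
    · intro x y hx hy
      exact Submodule.add_mem _ hx hy
  exact fun x _ => key x

/-- Two endomorphisms of the base change agreeing on the `1 ⊗ v` are equal. -/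
theorem end_ext_toB {f g : Module.End B (ρ.baseChangeAlong φ hφ).V}
    (h : ∀ v, f (toB φ hφ ρ v) = g (toB φ hφ ρ v)) : f = g := by
  refine LinearMap.ext_on (span_range_toB φ hφ ρ) ?_
  rintro _ ⟨v, rfl⟩
  exact h v

theorem toB_eq_zero_of_mem {v : ρ.V} (hv : v ∈ (RingHom.ker φ) • (⊤ : Submodule T ρ.V)) :
    toB φ hφ ρ v = 0 := by
  refine Submodule.smul_induction_on hv ?_ ?_
  · intro r hr n _
    rw [toB_smul, (RingHom.mem_ker).mp hr, zero_smul]
  · intro x y hx hy
    rw [map_add, hx, hy, add_zero]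

theorem mem_of_toB_eq_zero {v : ρ.V} (hv : toB φ hφ ρ v = 0) :
    v ∈ (RingHom.ker φ) • (⊤ : Submodule T ρ.V) := by
  classical
  letI : Algebra T B := φ.toAlgebra
  let b := Module.Free.chooseBasis T ρ.V
  let b' := b.baseChange B
  have h1 : ∀ i, b' i = toB φ hφ ρ (b i) := fun i => Module.Basis.baseChange_apply _ _ _
  have h2 : toB φ hφ ρ v = ∑ i, φ (b.repr v i) • b' i := by
    conv_lhs => rw [← b.sum_repr v]
    rw [map_sum]
    refine Finset.sum_congr rfl fun i _ => ?_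
    rw [toB_smul, h1]
    rfl
  rw [hv] at h2
  have h3 : ∀ i, φ (b.repr v i) = 0 :=
    Fintype.linearIndependent_iff.mp b'.linearIndependent _ h2.symm
  rw [← b.sum_repr v]
  refine Submodule.sum_mem _ fun i _ => ?_
  exact Submodule.smul_mem_smul ((RingHom.mem_ker).mpr (h3 i)) Submodule.mem_top

theorem toB_eq_zero_iff {v : ρ.V} :
    toB φ hφ ρ v = 0 ↔ v ∈ (RingHom.ker φ) • (⊤ : Submodule T ρ.V) :=
  ⟨mem_of_toB_eq_zero φ hφ ρ, toB_eq_zero_of_mem φ hφ ρ⟩

theorem det_rhoB (σ : GQ) :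
    LinearMap.det ((ρ.baseChangeAlong φ hφ).ρ σ) = φ (LinearMap.det (ρ.ρ σ)) := by
  letI : Algebra T B := φ.toAlgebra
  show LinearMap.det ((ρ.ρ σ).baseChange B) = _
  rw [LinearMap.det_baseChange]
  rfl

theorem rOrd_toB (s s' : GQ) (v : ρ.V) :
    ROrd (ρ.baseChangeAlong φ hφ) s s' (toB φ hφ ρ v) = toB φ hφ ρ (ROrd ρ s s' v) := by
  unfold ROrd
  simp only [Module.End.mul_apply, LinearMap.sub_apply, LinearMap.smul_apply,
    Module.End.one_apply, rhoB_toB, det_rhoB, map_sub, toB_smul]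

theorem actZ_toB (u : GQ →₀ ℤ) (v : ρ.V) :
    actZ (ρ.baseChangeAlong φ hφ) u (toB φ hφ ρ v) = toB φ hφ ρ (actZ ρ u v) := by
  induction u using Finsupp.induction_linear with
  | zero => rw [actZ_zero, actZ_zero, LinearMap.zero_apply, LinearMap.zero_apply, map_zero]
  | add u w hu hw =>
    rw [actZ_add, actZ_add, LinearMap.add_apply, LinearMap.add_apply, map_add, hu, hw]
  | single g n =>
    rw [actZ_single, actZ_single, LinearMap.smul_apply, LinearMap.smul_apply, rhoB_toB, map_zsmul]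

end Fermat.Agent.FF3.P
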