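import Mathlib

/-!
# PROGRAMME I, block P, node (P-C): submodules stable under all endomorphisms

`V` free with a finite basis `b` over a commutative ring `A`.

* `mem_of_end_stable` : if `W ≤ V` is stable under `End_A V` and `w ∈ W`, then every
  `(b.repr w i) • b j ∈ W`;
* `eq_colon_smul_top` : such a `W` is `𝔟 V` with `𝔟 = W.colon ⊤`;
* `entry_sq_mem` : if moreover `I V ≤ W`, `R V ≤ W` and `e • R W ≤ I V`, then `e * (R_ij)² ∈ I`.
-/

set_option autoImplicit false
set_option linter.unusedSectionVars false

namespace Fermat.Agent.FF3.P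

open Module

variable {A : Type*} [CommRing A] {V : Type*} [AddCommGroup V] [Module A V]
variable {ι : Type*} [Fintype ι] [DecidableEq ι]

/-- The endomorphism `v ↦ (i-th coordinate of v) • b j`. -/
noncomputable def coordEnd (b : Basis ι A V) (i j : ι) : Module.End A V :=
  (LinearMap.toSpanSingleton A V (b j)).comp (b.coord i)

theorem coordEnd_apply (b : Basis ι A V) (i j : ι) (v : V) :
    coordEnd b i j v = b.repr v i • b j := by
  simp [coordEnd, LinearMap.toSpanSingleton_apply]

theorem mem_of_end_stable (b : Basis ι A V) {W : Submodule A V}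
    (hW : ∀ f : Module.End A V, ∀ w ∈ W, f w ∈ W) {w : V} (hw : w ∈ W) (i j : ι) :
    b.repr w i • b j ∈ W := by
  rw [← coordEnd_apply]
  exact hW _ w hw

/-- A submodule stable under all endomorphisms is `𝔟 V`. -/
theorem eq_colon_smul_top (b : Basis ι A V) {W : Submodule A V}
    (hW : ∀ f : Module.End A V, ∀ w ∈ W, f w ∈ W) :
    W = (W.colon (⊤ : Submodule A V)) • (⊤ : Submodule A V) := by
  apply le_antisymm
  · intro w hw
    rw [← b.sum_repr w]
    refine Submodule.sum_mem _ fun i _ => ?_
    refine Submodule.smul_mem_smul ?_ Submodule.mem_top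
    rw [Submodule.mem_colon]
    intro v _
    rw [← b.sum_repr v, Finset.smul_sum]
    refine Submodule.sum_mem _ fun j _ => ?_
    rw [smul_comm]
    exact W.smul_mem _ (mem_of_end_stable b hW hw i j)
  · rw [Submodule.smul_le]
    intro r hr v _
    rw [Submodule.mem_colon] at hr
    exact hr v Submodule.mem_top

theorem repr_mem_of_mem_smul_top (b : Basis ι A V) (I : Ideal A) {v : V}
    (hv : v ∈ I • (⊤ : Submodule A V)) (i : ι) : b.repr v i ∈ I := by
  refine Submodule.smul_induction_on hv ?_ ?_
  · intro r hr n _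
    rw [map_smul, Finsupp.smul_apply, smul_eq_mul]
    exact I.mul_mem_right _ hr
  · intro x y hx hy
    rw [map_add, Finsupp.add_apply]
    exact I.add_mem hx hy

/-- **(P-C)**: the entries of `R` square to zero modulo `I` (up to the factor `e`). -/
theorem entry_sq_mem (b : Basis ι A V) (R : Module.End A V) (W : Submodule A V) (I : Ideal A)
    (hW : ∀ f : Module.End A V, ∀ w ∈ W, f w ∈ W)
    (e : ℕ) (h1 : ∀ v, R v ∈ W) (h2 : ∀ w ∈ W, e • R w ∈ I • (⊤ : Submodule A V)) (i j : ι) :
    (e : A) * (LinearMap.toMatrix b b R i j) ^ 2 ∈ I := by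
  have hr : LinearMap.toMatrix b b R i j = b.repr (R (b j)) i := by
    rw [LinearMap.toMatrix_apply]
  set r := LinearMap.toMatrix b b R i j with hrdef
  -- `r • b j ∈ W`
  have h3 : r • b j ∈ W := by
    rw [hr]
    exact mem_of_end_stable b hW (h1 (b j)) i j
  have h4 := h2 _ h3
  have h5 := repr_mem_of_mem_smul_top b I h4 i
  rw [map_nsmul, Finsupp.smul_apply, map_smul, map_smul, Finsupp.smul_apply, ← hr, smul_eq_mul,
    nsmul_eq_mul] at h5
  rw [pow_two]
  exact h5

end Fermat.Agent.FF3.P
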