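import Fermat.Agent.FF3.P.Top
import Fermat.Agent.FF3.Pet.Main

/-!
# PROGRAMME I, block P: S33 from (P1) `TorEps` ALONE

`Top.s33_of_torEps` with the Petersson datum discharged by block D-Pet (route A,
`Fermat.Agent.FF3.Pet.exists_petersson`).
-/

set_option autoImplicit false
set_option linter.unusedSectionVars false

noncomputable section

set_option synthInstance.maxHeartbeats 400000

namespace Fermat.Agent.FF3.P

open ModularCurve IsLocalRing CuspForm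
open Fermat.Agent.X0 Fermat.Agent.BR.Final Fermat.Agent.BR2 Fermat.Agent.BR

variable {p : ℕ} {N : ℕ} [NeZero N] {S : Finset ℕ}
  {𝒪 : Type} [CommRing 𝒪] [IsDomain 𝒪] [IsDiscreteValuationRing 𝒪]
  [IsAdicComplete (IsLocalRing.maximalIdeal 𝒪) 𝒪]
  {θ : CuspForm.heckeAlgebra N 2 (↑S : Set ℕ) →+* IsLocalRing.ResidueField 𝒪}
  {T : Type} [CommRing T] [IsLocalRing T] [IsNoetherianRing T]
  [IsAdicComplete (IsLocalRing.maximalIdeal T) T] [Algebra 𝒪 T] [IsLocalHom (algebraMap 𝒪 T)]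
  [Module.Finite 𝒪 T] [Module.Free 𝒪 T]

/-- **S33 from (P1) alone.** -/
theorem s33_of_torEps_only [Finite (ResidueField 𝒪)] [CharZero 𝒪]
    (hTE : ∀ (M' q : ℕ) [NeZero M'] [Fact q.Prime], nuTwo M' = 0 → nuThree M' = 0 →
      ∀ (hqM' : ¬ q ∣ M') (B : ValuationSubring Kb) (hB : B.LiesOverPrime q)
      [IsAlgClosed (ResidueField B)] (Dt : ModularData M' q B hB hqM'), TorEps Dt)
    (hp : p.Prime) (hp2 : p ≠ 2) (hp𝒪 : (p : 𝒪) ∈ maximalIdeal 𝒪) (hN : p ∣ N ∧ ¬ p ^ 2 ∣ N)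
    (hNS : ∀ q : ℕ, q.Prime → q ∣ N → q ∈ S)
    (H : HeckeGaloisRepDatum N (↑S : Set ℕ) 𝒪 θ T)
    (hres : (GaloisRepAdic.ofResidualGaloisRep H.ρ.residual).IsOrdinaryAt p) :
    H.ρ.IsOrdinaryAt p :=
  s33_of_torEps hTE (Fermat.Agent.FF3.Pet.exists_petersson N).some hp hp2 hp𝒪 hN hNS H hres

end Fermat.Agent.FF3.P
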