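import Fermat.Agent.FF3.P.BaseChangeB
import Fermat.Agent.FF2.S32M.EndAnn

/-!
# PROGRAMME I, block P, node (P-B3): the old quotient is flat

`φ : T → B` a local homomorphism onto a finite local ring, `ρB` the base change of `ρ`.  If every
`u ∈ ℤ[G_ℚ]` killing `J₀(M')[p ^ k]` maps `V` into `(ker φ) V`, then `ρB` is flat at `p`
(`S32M.isFlatAt_of_ann` + S19 at the level `M'`, `p ∤ M'`).
-/

set_option autoImplicit false
set_option linter.unusedSectionVars false
set_option linter.style.haveILetI false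

noncomputable section

namespace Fermat.Agent.FF3.P

open ModularCurve IsLocalRing Fermat.Agent.FF2.S32M Fermat.Agent.FF2.Order

local notation "GQ" => (AlgebraicClosure ℚ ≃ₐ[ℚ] AlgebraicClosure ℚ)

/-- The bridge from the annihilator hypothesis of `S32M.isFlatAt_of_ann` to `Kills`. -/
theorem kills_of_torsAct {L p k : ℕ} [NeZero L] [Fact p.Prime] {u : GQ →₀ ℤ}
    (h : ∀ x : ↥(Submodule.torsionBy ℤ (JZero L) ((p : ℤ) ^ k)),
      u.sum (fun σ n => n • torsAct L p k σ x) = 0) : Kills L p k u := by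
  intro x hx
  have hx' : x ∈ Submodule.torsionBy ℤ (JZero L) ((p : ℤ) ^ k) := by
    rw [Submodule.mem_torsionBy_iff]
    have : ((p : ℤ) ^ k) • x = (p ^ k : ℕ) • x := by
      rw [← Nat.cast_pow, natCast_zsmul]
    rw [this]; exact hx
  have h1 := congrArg (Submodule.subtype _) (h ⟨x, hx'⟩)
  rw [map_zero, map_finsuppSum] at h1
  rw [fsAct_apply]
  rw [← h1]
  refine Finsupp.sum_congr fun σ _ => ?_
  rw [map_zsmul]
  rfl

theorem sum_levelAction_mk {A : Type} [CommRing A] [IsLocalRing A] (ρ : GaloisRepAdic A)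
    (J : Ideal A) (u : GQ →₀ ℤ) (w : ρ.V) :
    (u.sum fun σ n => n • ρ.levelAction J σ (Submodule.Quotient.mk w)) =
      Submodule.Quotient.mk (actZ ρ u w) := by
  induction u using Finsupp.induction_linear with
  | zero => rw [actZ_zero, Finsupp.sum_zero_index, LinearMap.zero_apply,
      Submodule.Quotient.mk_zero]
  | add a b ha hb =>
    rw [Finsupp.sum_add_index', actZ_add, LinearMap.add_apply, Submodule.Quotient.mk_add, ha, hb]
    · intro g; rw [zero_smul]
    · intro g m n; rw [add_smul]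
  | single g n =>
    rw [Finsupp.sum_single_index (by rw [zero_smul]), actZ_single, LinearMap.smul_apply,
      levelAction_mk, Submodule.Quotient.mk_smul]

variable {T B : Type} [CommRing T] [IsLocalRing T] [CommRing B] [IsLocalRing B]
  (φ : T →+* B) (hφ : IsLocalHom φ) (ρ : GaloisRepAdic T)

/-- **(P-B3)** flatness of the old quotient. -/
theorem isFlatAt_baseChange [Finite B] {p : ℕ} [Fact p.Prime] {M' : ℕ} [NeZero M']
    (hpM' : ¬ p ∣ M') (h19 : S19Statement)
    (hG0 : ∀ m : ℕ, Finite ↥(Submodule.torsionBy ℤ (JZero M') ((p : ℤ) ^ m)))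
    (k : ℕ) (hkill : ∀ u : GQ →₀ ℤ, Kills M' p k u → ∀ v : ρ.V,
      actZ ρ u v ∈ (RingHom.ker φ) • (⊤ : Submodule T ρ.V)) :
    (ρ.baseChangeAlong φ hφ).IsFlatAt p := by
  refine isFlatAt_of_ann (ρ.baseChangeAlong φ hφ) p M'
    (Finite.of_surjective _ (IsLocalRing.residue_surjective (R := B)))
    (fun m => isFlatRealizable_torsion_of_S19 h19 M' p hpM' m) hG0
    (fun J hJ => Fermat.Agent.TW.Hopf.DecompRing.finite_level _ J hJ) (fun J _ => ⟨k, ?_⟩)
  intro u hu y
  have hK : Kills M' p k u := kills_of_torsAct hu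
  have h0 : actZ (ρ.baseChangeAlong φ hφ) u = 0 := by
    refine end_ext_toB φ hφ ρ fun v => ?_
    rw [actZ_toB, toB_eq_zero_of_mem φ hφ ρ (hkill u hK v), LinearMap.zero_apply]
  induction y using Submodule.Quotient.induction_on with
  | H w =>
    have h1 := sum_levelAction_mk (ρ.baseChangeAlong φ hφ) J u w
    rw [h1, h0, LinearMap.zero_apply, Submodule.Quotient.mk_zero]

end Fermat.Agent.FF3.P
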