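import Fermat.Agent.FF3.P.Defs
import Fermat.Agent.FF3.P.EndStable
import Fermat.Agent.S53.SchurH19

/-!
# PROGRAMME I, block P, node (P-B1): the new part is stable under all endomorphisms

* `actZ_ltr`, `kills_ltr` : left translation in `ℤ[G_ℚ]`;
* `newPart_rho_stable` : `newPart` is stable under `ρ(g)`;
* `newPart_end_stable` : for a residually absolutely irreducible `ρ`, `newPart` is stable under
  every endomorphism of `V`;
* `newPart_eq_smul_top` : `newPart = 𝔟 V` with `𝔟 = newPart.colon ⊤`, and `I ≤ 𝔟`.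
-/

set_option autoImplicit false
set_option linter.unusedSectionVars false

noncomputable section

namespace Fermat.Agent.FF3.P

open ModularCurve IsLocalRing Fermat.Agent.FF2.S32M

local notation "GQ" => (AlgebraicClosure ℚ ≃ₐ[ℚ] AlgebraicClosure ℚ)

variable {A : Type} [CommRing A] [IsLocalRing A] (ρ : GaloisRepAdic A)

theorem actZ_single (g : GQ) (n : ℤ) : actZ ρ (Finsupp.single g n) = n • ρ.ρ g := by
  unfold actZ
  rw [Finsupp.sum_single_index]
  rw [zero_smul]

theorem actZ_add (u v : GQ →₀ ℤ) : actZ ρ (u + v) = actZ ρ u + actZ ρ v := by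
  unfold actZ
  rw [Finsupp.sum_add_index']
  · intro g; rw [zero_smul]
  · intro g m n; rw [add_smul]

theorem actZ_zero : actZ ρ 0 = 0 := by
  unfold actZ
  rw [Finsupp.sum_zero_index]

theorem actZ_ltr (g : GQ) (u : GQ →₀ ℤ) : actZ ρ (ltr g u) = ρ.ρ g * actZ ρ u := by
  induction u using Finsupp.induction_linear with
  | zero => rw [map_zero, actZ_zero, mul_zero]
  | add u v hu hv => rw [map_add, actZ_add, actZ_add, hu, hv, mul_add]
  | single h n => rw [ltr_single, actZ_single, actZ_single, map_mul, mul_smul_comm]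

theorem kills_ltr {L p k : ℕ} [NeZero L] (g : GQ) {u : GQ →₀ ℤ} (hu : Kills L p k u) :
    Kills L p k (ltr g u) := by
  intro x hx
  rw [fsAct_ltr, hu x hx, smul_zero]

variable {ρ}

/-- `newPart` is stable under the Galois action. -/
theorem newPart_rho_stable {M' p k : ℕ} [NeZero M'] {I : Ideal A} (g : GQ) {w : ρ.V}
    (hw : w ∈ newPart ρ M' p k I) : ρ.ρ g w ∈ newPart ρ M' p k I := by
  unfold newPart at hw ⊢
  rw [Submodule.mem_sup] at hw
  obtain ⟨a, ha, b, hb, rfl⟩ := hw
  rw [map_add]
  refine Submodule.add_mem _ (Submodule.mem_sup_left ?_) (Submodule.mem_sup_right ?_)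
  · refine Submodule.span_induction (p := fun a _ => ρ.ρ g a ∈ Submodule.span A
      {w | ∃ u' : GQ →₀ ℤ, Kills M' p k u' ∧ ∃ v, w = actZ ρ u' v}) ?_ ?_ ?_ ?_ ha
    · rintro _ ⟨u', hu', v, rfl⟩
      refine Submodule.subset_span ⟨ltr g u', kills_ltr g hu', v, ?_⟩
      rw [actZ_ltr, Module.End.mul_apply]
    · rw [map_zero]; exact Submodule.zero_mem _
    · intro x y _ _ hx hy
      rw [map_add]; exact Submodule.add_mem _ hx hy
    · intro c x _ hx
      rw [map_smul]; exact Submodule.smul_mem _ c hx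
  · refine Submodule.smul_induction_on hb ?_ ?_
    · intro r hr n _
      rw [map_smul]
      exact Submodule.smul_mem_smul hr Submodule.mem_top
    · intro x y hx hy
      rw [map_add]; exact Submodule.add_mem _ hx hy

/-- **(P-B1)** `newPart` is stable under `End_A V` when `ρ(G)` spans `End_A V`. -/
theorem newPart_end_stable_of_span (hspan : Submodule.span A (Set.range ρ.ρ) = ⊤)
    {M' p k : ℕ} [NeZero M'] {I : Ideal A} (f : Module.End A ρ.V) {w : ρ.V}
    (hw : w ∈ newPart ρ M' p k I) : f w ∈ newPart ρ M' p k I := by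
  have hf : f ∈ Submodule.span A (Set.range ρ.ρ) := by rw [hspan]; exact Submodule.mem_top
  refine Submodule.span_induction (p := fun f _ => f w ∈ newPart ρ M' p k I) ?_ ?_ ?_ ?_ hf
  · rintro _ ⟨g, rfl⟩
    exact newPart_rho_stable g hw
  · rw [LinearMap.zero_apply]; exact Submodule.zero_mem _
  · intro x y _ _ hx hy
    rw [LinearMap.add_apply]; exact Submodule.add_mem _ hx hy
  · intro c x _ hx
    rw [LinearMap.smul_apply]; exact Submodule.smul_mem _ c hx

theorem newPart_end_stable (h : ρ.residual.IsAbsolutelyIrreducible)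
    {M' p k : ℕ} [NeZero M'] {I : Ideal A} (f : Module.End A ρ.V) {w : ρ.V}
    (hw : w ∈ newPart ρ M' p k I) : f w ∈ newPart ρ M' p k I :=
  newPart_end_stable_of_span (Fermat.Agent.S53.SchurH19.adic_span_range_eq_top ρ h) f hw

theorem smul_top_le_newPart {M' p k : ℕ} [NeZero M'] {I : Ideal A} :
    I • (⊤ : Submodule A ρ.V) ≤ newPart ρ M' p k I := le_sup_right

theorem actZ_mem_newPart {M' p k : ℕ} [NeZero M'] {I : Ideal A} {u' : GQ →₀ ℤ}
    (hu' : Kills M' p k u') (v : ρ.V) : actZ ρ u' v ∈ newPart ρ M' p k I :=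
  Submodule.mem_sup_left (Submodule.subset_span ⟨u', hu', v, rfl⟩)

end Fermat.Agent.FF3.P
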