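import Fermat.Agent.FF3.P.ShapeB
import Fermat.Agent.FF3.P.FlatB
import Fermat.Agent.FF3.P.EndStable

/-!
# PROGRAMME I, block P, node (P-B4): the old side `R_ord V ⊆ newPart`

`W := newPart ρ M' p k I` is `End_T V`-stable (residual absolute irreducibility), hence `W = 𝔟 V`
with `𝔟 := W.colon ⊤ ⊇ I`.  The base change of `ρ` to the finite local ring `T ⧸ 𝔟` is killed by
`Ann_{ℤ[G]} J₀(M')[p ^ k]`, so it is flat at `p` (`FlatB.isFlatAt_baseChange`); with the residual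
shape, `ShapeB.rord_mem_ker_smul_top` gives `R_ord V ⊆ 𝔟 V = W`.
-/

set_option autoImplicit false
set_option linter.unusedSectionVars false
set_option linter.style.haveILetI false

noncomputable section

namespace Fermat.Agent.FF3.P

open IsLocalRing ModularCurve Fermat.Agent.FF2.S32M

local notation "GQ" => (AlgebraicClosure ℚ ≃ₐ[ℚ] AlgebraicClosure ℚ)
local notation "Kb" => AlgebraicClosure ℚ

/-- **(P-B)** from the residual shape in coordinates. -/
theorem rord_mem_newPart_of_shape {T : Type} [CommRing T] [IsLocalRing T]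
    (ρ : GaloisRepAdic T) (habs : ρ.residual.IsAbsolutelyIrreducible)
    {p : ℕ} [hpF : Fact p.Prime] (hp2 : p ≠ 2) (hpT : (p : T) ∈ maximalIdeal T)
    {M' : ℕ} [NeZero M'] (hpM' : ¬ p ∣ M') (h19 : S19Statement)
    (hG0 : ∀ m : ℕ, Finite ↥(Submodule.torsionBy ℤ (JZero M') ((p : ℤ) ^ m)))
    {P : ValuationSubring Kb} (hP : P.LiesOverPrime p)
    (b : Module.Basis (Fin 2) T ρ.V)
    (h10 : ∀ σ ∈ P.decompositionSubgroup ℚ,
      LinearMap.toMatrix b b (ρ.ρ σ) 1 0 ∈ maximalIdeal T)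
    (h11 : ∀ σ ∈ P.inertiaSubgroupIn ℚ,
      LinearMap.toMatrix b b (ρ.ρ σ) 1 1 - 1 ∈ maximalIdeal T)
    {s₀ : GQ} (hs₀ : s₀ ∈ P.inertiaSubgroupIn ℚ)
    (hu : IsUnit (LinearMap.det (ρ.ρ s₀) - 1))
    (I : Ideal T) [Finite (T ⧸ I)] (k : ℕ) :
    ∀ s ∈ P.inertiaSubgroupIn ℚ, ∀ s' ∈ P.inertiaSubgroupIn ℚ, ∀ v : ρ.V,
      ROrd ρ s s' v ∈ newPart ρ M' p k I := by
  set W := newPart ρ M' p k I with hWdef
  set 𝔟 : Ideal T := W.colon (⊤ : Submodule T ρ.V) with h𝔟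
  have hW : W = 𝔟 • (⊤ : Submodule T ρ.V) :=
    eq_colon_smul_top b (fun f w hw => newPart_end_stable habs f hw)
  by_cases htop : 𝔟 = ⊤
  · intro s _ s' _ v
    rw [hW, htop, Submodule.top_smul]
    exact Submodule.mem_top
  · haveI : Nontrivial (T ⧸ 𝔟) := Ideal.Quotient.nontrivial_iff.mpr htop
    haveI : IsLocalRing (T ⧸ 𝔟) :=
      IsLocalRing.of_surjective' (Ideal.Quotient.mk 𝔟) Ideal.Quotient.mk_surjective
    have hφ : IsLocalHom (Ideal.Quotient.mk 𝔟) :=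
      IsLocalHom.of_surjective _ Ideal.Quotient.mk_surjective
    have hI𝔟 : I ≤ 𝔟 := by
      intro x hx
      rw [h𝔟, Submodule.mem_colon]
      intro v _
      exact smul_top_le_newPart (Submodule.smul_mem_smul hx Submodule.mem_top)
    haveI : Finite (T ⧸ 𝔟) :=
      Finite.of_surjective (Ideal.Quotient.factor hI𝔟) (Ideal.Quotient.factor_surjective hI𝔟)
    have hker : RingHom.ker (Ideal.Quotient.mk 𝔟) = 𝔟 := Ideal.mk_ker
    have hflat : (ρ.baseChangeAlong (Ideal.Quotient.mk 𝔟) hφ).IsFlatAt p :=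
      isFlatAt_baseChange (Ideal.Quotient.mk 𝔟) hφ ρ hpM' h19 hG0 k (fun u hu v => by
        rw [hker, ← hW]
        exact actZ_mem_newPart hu v)
    have hpB : ((p : ℕ) : T ⧸ 𝔟) ∈ maximalIdeal (T ⧸ 𝔟) := by
      have h1 := map_mem_maximalIdeal (Ideal.Quotient.mk 𝔟) hφ hpT
      rwa [map_natCast] at h1
    intro s hs s' hs' v
    have h2 := rord_mem_ker_smul_top (Ideal.Quotient.mk 𝔟) hφ ρ hpF.out hp2 hpB hP hflat b h10 h11
      hs₀ hu s hs s' hs' v
    rw [hker, ← hW] at h2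
    exact h2

end Fermat.Agent.FF3.P
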