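import Fermat.Agent.FF3.P.BaseChangeB
import Fermat.Agent.TW.Hopf.OrdLin

/-!
# PROGRAMME I, block P, node (P-B4b): residual shape ⟹ `R_ord = 0` over a finite flat quotient

* `rord_eq_zero_of_line`   : an ordinary line kills `R_ord`.
* `rord_baseChange_eq_zero`: `ρB := ρ.baseChangeAlong φ hφ` flat at `p`, `B` finite, and the
  residual shape of `ρ` in coordinates (`m₁₀(σ) ∈ 𝔪` on `D_P`, `m₁₁(σ) - 1 ∈ 𝔪` on `I_P`,
  `det ρ(s₀) - 1` a unit for one `s₀ ∈ I_P`) ⟹ `R_ord(ρB) = 0`.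
* `rord_mem_ker_smul_top`  : hence `R_ord(ρ) V ⊆ ker φ • V`.
-/

set_option autoImplicit false
set_option linter.unusedSectionVars false
set_option linter.style.haveILetI false

noncomputable section

namespace Fermat.Agent.FF3.P

open TensorProduct IsLocalRing Fermat.Agent.TW.Hopf

local notation "GQ" => (AlgebraicClosure ℚ ≃ₐ[ℚ] AlgebraicClosure ℚ)
local notation "Kb" => AlgebraicClosure ℚ

/-- An ordinary line kills `R_ord`. -/
theorem rord_eq_zero_of_line {A : Type} [CommRing A] [IsLocalRing A] (ρ : GaloisRepAdic A)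
    {P : ValuationSubring Kb} (L : Submodule A ρ.V)
    (hL : ∃ b : Module.Basis (Fin 2) A ρ.V, L = Submodule.span A {b 0})
    (hD : ∀ σ ∈ P.decompositionSubgroup ℚ, ∀ v ∈ L, ρ.ρ σ v ∈ L)
    (hI : ∀ σ ∈ P.inertiaSubgroupIn ℚ, ∀ v, ρ.ρ σ v - v ∈ L) :
    ∀ s ∈ P.inertiaSubgroupIn ℚ, ∀ s' ∈ P.inertiaSubgroupIn ℚ, ROrd ρ s s' = 0 := by
  obtain ⟨b, rfl⟩ := hL
  intro s hs s' hs'
  have h1 : ρ.ρ s' (b 0) ∈ Submodule.span A {b 0} :=
    hD s' (FlatRigid.inertia_le_decomp P hs') _ (Submodule.subset_span rfl)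
  obtain ⟨χ, hχ⟩ := Submodule.mem_span_singleton.mp h1
  have h2 : ρ.ρ s' (b 1) - b 1 ∈ Submodule.span A {b 0} := hI s' hs' _
  obtain ⟨c, hc⟩ := Submodule.mem_span_singleton.mp h2
  have hc' : ρ.ρ s' (b 1) = c • b 0 + b 1 := by rw [hc]; abel
  have hdet : LinearMap.det (ρ.ρ s') = χ := by
    rw [← LinearMap.det_toMatrix b, Matrix.det_fin_two]
    simp only [LinearMap.toMatrix_apply, ← hχ, hc', map_add, map_smul, Module.Basis.repr_self,
      Finsupp.add_apply, Finsupp.smul_apply, Finsupp.single_apply, smul_eq_mul]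
    simp
  refine LinearMap.ext fun v => ?_
  have h3 : ρ.ρ s v - v ∈ Submodule.span A {b 0} := hI s hs v
  obtain ⟨d, hd⟩ := Submodule.mem_span_singleton.mp h3
  have h4 : (ρ.ρ s - 1) v = d • b 0 := by
    rw [LinearMap.sub_apply, Module.End.one_apply, hd]
  unfold ROrd
  rw [Module.End.mul_apply, h4, map_smul, LinearMap.sub_apply, LinearMap.smul_apply,
    Module.End.one_apply, hdet, ← hχ, sub_self, smul_zero, LinearMap.zero_apply]

section Shape

variable {T B : Type} [CommRing T] [IsLocalRing T] [CommRing B] [IsLocalRing B]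
  (φ : T →+* B) (hφ : IsLocalHom φ) (ρ : GaloisRepAdic T)

/-- The base-changed basis `1 ⊗ b i`. -/
def basisB (b : Module.Basis (Fin 2) T ρ.V) :
    Module.Basis (Fin 2) B (ρ.baseChangeAlong φ hφ).V :=
  letI : Algebra T B := φ.toAlgebra
  (b.baseChange B : Module.Basis (Fin 2) B (B ⊗[T] ρ.V))

theorem basisB_apply (b : Module.Basis (Fin 2) T ρ.V) (i : Fin 2) :
    basisB φ hφ ρ b i = toB φ hφ ρ (b i) := by
  letI : Algebra T B := φ.toAlgebra
  exact Module.Basis.baseChange_apply _ _ _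

theorem basisB_repr_toB (b : Module.Basis (Fin 2) T ρ.V) (v : ρ.V) (i : Fin 2) :
    (basisB φ hφ ρ b).repr (toB φ hφ ρ v) i = φ (b.repr v i) := by
  letI : Algebra T B := φ.toAlgebra
  have h := Module.Basis.baseChange_repr_tmul (S := B) b (1 : B) v i
  rw [Algebra.smul_def, mul_one] at h
  exact h

theorem basisB_repr_rho (b : Module.Basis (Fin 2) T ρ.V) (σ : GQ) (i j : Fin 2) :
    (basisB φ hφ ρ b).repr ((ρ.baseChangeAlong φ hφ).ρ σ (basisB φ hφ ρ b j)) i =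
      φ (LinearMap.toMatrix b b (ρ.ρ σ) i j) := by
  rw [basisB_apply, rhoB_toB, basisB_repr_toB, LinearMap.toMatrix_apply]

include hφ in
theorem map_mem_maximalIdeal {t : T} (ht : t ∈ maximalIdeal T) : φ t ∈ maximalIdeal B := by
  rw [mem_maximalIdeal, mem_nonunits_iff] at ht ⊢
  exact fun h => ht (haveI := hφ; IsLocalHom.map_nonunit t h)

/-- The shape submodule `E := {w | second coordinate ∈ 𝔪_B}` of the base change. -/
def shapeE (b : Module.Basis (Fin 2) T ρ.V) : Submodule B (ρ.baseChangeAlong φ hφ).V :=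
  Submodule.comap ((basisB φ hφ ρ b).coord 1) (maximalIdeal B)

theorem mem_shapeE (b : Module.Basis (Fin 2) T ρ.V) (w : (ρ.baseChangeAlong φ hφ).V) :
    w ∈ shapeE φ hφ ρ b ↔ (basisB φ hφ ρ b).repr w 1 ∈ maximalIdeal B := by
  unfold shapeE
  rw [Submodule.mem_comap, Module.Basis.coord_apply]

/-- **Flat + residual shape in coordinates ⟹ `R_ord = 0`** over the finite local ring `B`. -/
theorem rord_baseChange_eq_zero [Finite B] {p : ℕ} (hp : p.Prime) (hp2 : p ≠ 2)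
    (hpB : (p : B) ∈ maximalIdeal B) {P : ValuationSubring Kb} (hP : P.LiesOverPrime p)
    (hflat : (ρ.baseChangeAlong φ hφ).IsFlatAt p)
    (b : Module.Basis (Fin 2) T ρ.V)
    (h10 : ∀ σ ∈ P.decompositionSubgroup ℚ,
      LinearMap.toMatrix b b (ρ.ρ σ) 1 0 ∈ maximalIdeal T)
    (h11 : ∀ σ ∈ P.inertiaSubgroupIn ℚ,
      LinearMap.toMatrix b b (ρ.ρ σ) 1 1 - 1 ∈ maximalIdeal T)
    {s₀ : GQ} (hs₀ : s₀ ∈ P.inertiaSubgroupIn ℚ)
    (hu : IsUnit (LinearMap.det (ρ.ρ s₀) - 1)) :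
    ∀ s ∈ P.inertiaSubgroupIn ℚ, ∀ s' ∈ P.inertiaSubgroupIn ℚ,
      ROrd (ρ.baseChangeAlong φ hφ) s s' = 0 := by
  set ρB := ρ.baseChangeAlong φ hφ with hρB
  set b' := basisB φ hφ ρ b with hb'
  set E := shapeE φ hφ ρ b with hE
  have hmE : maximalIdeal B • (⊤ : Submodule B ρB.V) ≤ E := by
    intro w hw
    rw [hE, mem_shapeE]
    exact (OrdLin.mem_mV_iff b' w).mp hw 1
  -- `D_P`-stability
  have hED : ∀ σ ∈ P.decompositionSubgroup ℚ, ∀ v ∈ E, ρB.ρ σ v ∈ E := by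
    intro σ hσ v hv
    rw [hE, mem_shapeE] at hv ⊢
    rw [OrdLin.repr_act b' (ρB.ρ σ) v 1, hb', basisB_repr_rho, basisB_repr_rho]
    exact Ideal.add_mem _ (Ideal.mul_mem_left _ _ (map_mem_maximalIdeal φ hφ (h10 σ hσ)))
      (Ideal.mul_mem_right _ _ hv)
  have hquot : ∀ σ ∈ P.inertiaSubgroupIn ℚ, ∀ v, ρB.ρ σ v - v ∈ E := by
    intro σ hσ v
    rw [hE, mem_shapeE, map_sub, Finsupp.sub_apply,
      OrdLin.repr_act b' (ρB.ρ σ) v 1, hb', basisB_repr_rho, basisB_repr_rho]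
    have h1 : (basisB φ hφ ρ b).repr v 0 * φ (LinearMap.toMatrix b b (ρ.ρ σ) 1 0) +
        (basisB φ hφ ρ b).repr v 1 * φ (LinearMap.toMatrix b b (ρ.ρ σ) 1 1) -
          (basisB φ hφ ρ b).repr v 1 =
        (basisB φ hφ ρ b).repr v 0 * φ (LinearMap.toMatrix b b (ρ.ρ σ) 1 0) +
          (basisB φ hφ ρ b).repr v 1 * φ (LinearMap.toMatrix b b (ρ.ρ σ) 1 1 - 1) := by
      rw [map_sub φ, map_one φ]
      ring
    rw [h1]
    exact Ideal.add_mem _ (Ideal.mul_mem_left _ _ (map_mem_maximalIdeal φ hφ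
      (h10 σ (FlatRigid.inertia_le_decomp P hσ))))
      (Ideal.mul_mem_left _ _ (map_mem_maximalIdeal φ hφ (h11 σ hσ)))
  have hE2 : E ⊔ maximalIdeal B • (⊤ : Submodule B ρB.V) ≠ ⊤ := by
    intro htop
    rw [sup_eq_left.mpr hmE] at htop
    have h1 : b' 1 ∈ E := by rw [htop]; exact Submodule.mem_top
    rw [hE, mem_shapeE, ← hb', Module.Basis.repr_self, Finsupp.single_eq_same] at h1
    exact (maximalIdeal.isMaximal B).ne_top ((Ideal.eq_top_iff_one _).mpr h1)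
  have hsub : ∃ σ ∈ P.inertiaSubgroupIn ℚ, ∃ v ∈ E, ρB.ρ σ v - v ∉
      maximalIdeal B • (⊤ : Submodule B ρB.V) := by
    refine ⟨s₀, hs₀, b' 0, ?_, ?_⟩
    · rw [hE, mem_shapeE, ← hb', Module.Basis.repr_self, Finsupp.single_eq_of_ne (by decide)]
      exact Ideal.zero_mem _
    · intro hmem
      have h1 := (OrdLin.mem_mV_iff b' _).mp hmem 0
      rw [map_sub, Finsupp.sub_apply, hb', basisB_repr_rho, Module.Basis.repr_self,
        Finsupp.single_eq_same, ← map_one φ, ← map_sub] at h1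
      -- `m₀₀ - 1` is not a unit
      have h2 : LinearMap.toMatrix b b (ρ.ρ s₀) 0 0 - 1 ∈ maximalIdeal T := by
        rw [mem_maximalIdeal, mem_nonunits_iff]
        intro hunit
        rw [mem_maximalIdeal, mem_nonunits_iff] at h1
        exact h1 (hunit.map φ)
      have h3 : LinearMap.det (ρ.ρ s₀) - 1 ∈ maximalIdeal T := by
        have h4 : LinearMap.det (ρ.ρ s₀) - 1 =
            (LinearMap.toMatrix b b (ρ.ρ s₀) 0 0 - 1) +
              (LinearMap.toMatrix b b (ρ.ρ s₀) 0 0 * (LinearMap.toMatrix b b (ρ.ρ s₀) 1 1 - 1) -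
                LinearMap.toMatrix b b (ρ.ρ s₀) 0 1 * LinearMap.toMatrix b b (ρ.ρ s₀) 1 0) := by
          rw [← LinearMap.det_toMatrix b, Matrix.det_fin_two]
          ring
        rw [h4]
        exact Ideal.add_mem _ h2 (Ideal.sub_mem _ (Ideal.mul_mem_left _ _ (h11 s₀ hs₀))
          (Ideal.mul_mem_left _ _ (h10 s₀ (FlatRigid.inertia_le_decomp P hs₀))))
      rw [mem_maximalIdeal, mem_nonunits_iff] at h3
      exact h3 hu
  obtain ⟨L, hL, hD, hI⟩ :=
    Fermat.Agent.FF2.S33.exists_ordinary_line_of_isFlatAt_of_shape_general P hp hp2 hpB ρB hflat hP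
      E hE2 hED hquot hsub
  exact rord_eq_zero_of_line ρB L hL hD hI

/-- Hence `R_ord(ρ) V ⊆ ker φ • V`. -/
theorem rord_mem_ker_smul_top [Finite B] {p : ℕ} (hp : p.Prime) (hp2 : p ≠ 2)
    (hpB : (p : B) ∈ maximalIdeal B) {P : ValuationSubring Kb} (hP : P.LiesOverPrime p)
    (hflat : (ρ.baseChangeAlong φ hφ).IsFlatAt p)
    (b : Module.Basis (Fin 2) T ρ.V)
    (h10 : ∀ σ ∈ P.decompositionSubgroup ℚ,
      LinearMap.toMatrix b b (ρ.ρ σ) 1 0 ∈ maximalIdeal T)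
    (h11 : ∀ σ ∈ P.inertiaSubgroupIn ℚ,
      LinearMap.toMatrix b b (ρ.ρ σ) 1 1 - 1 ∈ maximalIdeal T)
    {s₀ : GQ} (hs₀ : s₀ ∈ P.inertiaSubgroupIn ℚ)
    (hu : IsUnit (LinearMap.det (ρ.ρ s₀) - 1)) :
    ∀ s ∈ P.inertiaSubgroupIn ℚ, ∀ s' ∈ P.inertiaSubgroupIn ℚ, ∀ v : ρ.V,
      ROrd ρ s s' v ∈ RingHom.ker φ • (⊤ : Submodule T ρ.V) := by
  intro s hs s' hs' v
  rw [← toB_eq_zero_iff φ hφ ρ, ← rOrd_toB,
    rord_baseChange_eq_zero φ hφ ρ hp hp2 hpB hP hflat b h10 h11 hs₀ hu s hs s' hs',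
    LinearMap.zero_apply]

end Shape

end Fermat.Agent.FF3.P
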