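import Fermat.Agent.FF3.P.OldSide
import Fermat.Agent.FF3.PShape.Shape
import Fermat.Agent.FF3.PA.Assembly
import Fermat.Agent.FF3.PGeo.GeoIn
import Fermat.Agent.FF3.PetAlg.Datum
import Fermat.Agent.S19
import Fermat.Agent.FF2.G0b.FiniteTorsion

/-!
# PROGRAMME I, block P: the top of the plumbing

* `rord_mem_newPart` : **(P-B)**, the contract literal (R-SHAPE of helper9 + `s₀` of helper16 +
  `OldSide.rord_mem_newPart_of_shape`, with S19 at the level `M'`).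
* `s33_of_torEps`    : **S33 from (P1) `TorEps` and the Petersson datum** (block D-Pet):
  the two inputs of the final `S33.lean` that are not on main.
-/

set_option autoImplicit false
set_option linter.unusedSectionVars false
set_option linter.style.haveILetI false

noncomputable section

set_option synthInstance.maxHeartbeats 400000

namespace Fermat.Agent.FF3.P

open ModularCurve IsLocalRing CuspForm
open Fermat.Agent.X0 Fermat.Agent.BR.Final Fermat.Agent.BR2 Fermat.Agent.BR2.SetupOfData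
open Fermat.Agent.BR Fermat.Agent.Pseudo Fermat.Agent.FF2.S32M Fermat.Agent.FF2.Order

local notation "GQ" => (AlgebraicClosure ℚ ≃ₐ[ℚ] AlgebraicClosure ℚ)

variable {p : ℕ} {N : ℕ} [NeZero N] {S : Finset ℕ}
  {𝒪 : Type} [CommRing 𝒪] [IsDomain 𝒪] [IsDiscreteValuationRing 𝒪]
  [IsAdicComplete (IsLocalRing.maximalIdeal 𝒪) 𝒪]
  {θ : CuspForm.heckeAlgebra N 2 (↑S : Set ℕ) →+* IsLocalRing.ResidueField 𝒪}
  {T : Type} [CommRing T] [IsLocalRing T] [IsNoetherianRing T]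
  [IsAdicComplete (IsLocalRing.maximalIdeal T) T] [Algebra 𝒪 T] [IsLocalHom (algebraMap 𝒪 T)]
  [Module.Finite 𝒪 T] [Module.Free 𝒪 T]

/-- **(P-B) old side** (contract literal). -/
theorem rord_mem_newPart [Finite (ResidueField 𝒪)] [CharZero 𝒪]
    (hp : p.Prime) (hp2 : p ≠ 2) (hp𝒪 : (p : 𝒪) ∈ maximalIdeal 𝒪)
    (hNS : ∀ q : ℕ, q.Prime → q ∣ N → q ∈ S)
    (H : HeckeGaloisRepDatum N (↑S : Set ℕ) 𝒪 θ T)
    (hres : (GaloisRepAdic.ofResidualGaloisRep H.ρ.residual).IsOrdinaryAt p)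
    {M' : ℕ} [NeZero M'] (hpM' : ¬ p ∣ M') {P : ValuationSubring Kb} (hP : P.LiesOverPrime p)
    (I : Ideal T) [Finite (T ⧸ I)] (k : ℕ) :
    ∀ s ∈ P.inertiaSubgroupIn ℚ, ∀ s' ∈ P.inertiaSubgroupIn ℚ, ∀ v : H.ρ.V,
      ROrd H.ρ s s' v ∈ newPart H.ρ M' p k I := by
  haveI hpF : Fact p.Prime := ⟨hp⟩
  have hpT : (p : T) ∈ maximalIdeal T := Fermat.Agent.FF2.S32G.natCast_mem_maximalIdeal hp𝒪
  obtain ⟨b, h10, h11⟩ := Fermat.Agent.FF3.PShape.exists_basis_residual_shape H.ρ hres hP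
  obtain ⟨s₀, hs₀, hu⟩ := Fermat.Agent.FF3.PA.exists_inertia_det_sub_one_isUnit hp hp2 hp𝒪 H P hP
  exact rord_mem_newPart_of_shape H.ρ H.residual_absIrr hp2 hpT hpM'
    (fun N _ ℓ _ h k => Fermat.Agent.S19.result N ℓ h k)
    (fun m => Fermat.Agent.FF2.G0b.finite_torsionBy_JZero_pow M' p m) hP b h10 h11 hs₀ hu I k

/-- **S33 from (P1) and the Petersson datum.** -/
theorem s33_of_torEps [Finite (ResidueField 𝒪)] [CharZero 𝒪]
    (hTE : ∀ (M' q : ℕ) [NeZero M'] [Fact q.Prime], nuTwo M' = 0 → nuThree M' = 0 →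
      ∀ (hqM' : ¬ q ∣ M') (B : ValuationSubring Kb) (hB : B.LiesOverPrime q)
      [IsAlgClosed (ResidueField B)] (Dt : ModularData M' q B hB hqM'), TorEps Dt)
    (hPet : Fermat.Agent.FF3.PetAlg.PeterssonData N)
    (hp : p.Prime) (hp2 : p ≠ 2) (hp𝒪 : (p : 𝒪) ∈ maximalIdeal 𝒪) (hN : p ∣ N ∧ ¬ p ^ 2 ∣ N)
    (hNS : ∀ q : ℕ, q.Prime → q ∣ N → q ∈ S)
    (H : HeckeGaloisRepDatum N (↑S : Set ℕ) 𝒪 θ T)
    (hres : (GaloisRepAdic.ofResidualGaloisRep H.ρ.residual).IsOrdinaryAt p) :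
    H.ρ.IsOrdinaryAt p := by
  haveI hpF : Fact p.Prime := ⟨hp⟩
  have hred : IsReduced T := Fermat.Agent.FF3.PetAlg.isReduced_of_datum hPet hNS H
  have hgeo : GeoIn N p :=
    Fermat.Agent.FF3.PGeo.geoIn_of_dvd hN (fun M' _ h2 h3 hpM' B hB _ Dt =>
      hTE M' p h2 h3 hpM' B hB Dt)
  exact Fermat.Agent.FF3.PA.isOrdinaryAt_of_geoIn hp2 hp𝒪 hNS H hgeo hred
    (fun {M'} _ hpM' {P} hP I _ k => rord_mem_newPart hp hp2 hp𝒪 hNS H hres hpM' hP I k)

end Fermat.Agent.FF3.P
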